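import Fermat.Agent.MazLQB.Pair

/-!
# BLOCK LQ-B of the Mazur project
-/

set_option autoImplicit false
set_option linter.unusedSectionVars false

noncomputable section

open Fermat.Agent.SEL Fermat.Agent.MzGal Fermat.Agent.MazLQ
open scoped Pointwise

namespace Fermat.Agent.MazLQB

local notation "Qb" => AlgebraicClosure ℚ
local notation "Γ" => (AlgebraicClosure ℚ ≃ₐ[ℚ] AlgebraicClosure ℚ)

theorem exists_cyc (s : Γ) {m : ℕ} (hm : m ≠ 0) : ∃ k : ℕ, ∀ ζ : Qb, ζ ^ m = 1 → s ζ = ζ ^ k := by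
  have : NeZero m := ⟨hm⟩
  have : NeZero (m : Qb) := ⟨Nat.cast_ne_zero.mpr hm⟩
  obtain ⟨ζ0, hζ0⟩ := HasEnoughRootsOfUnity.exists_primitiveRoot Qb m
  have h : s ζ0 ^ m = 1 := by rw [← map_pow, hζ0.pow_eq_one, map_one]
  obtain ⟨k, -, hk⟩ := hζ0.eq_pow_of_pow_eq_one h
  refine ⟨k, fun ζ hζ => ?_⟩
  obtain ⟨i, -, rfl⟩ := hζ0.eq_pow_of_pow_eq_one hζ
  rw [map_pow, ← hk, ← pow_mul, ← pow_mul, mul_comm]

theorem pow_dvd_of_dvd_mul {q c n k : ℕ} (hq : q.Prime) (hc : c ≠ 0) (hck : c < q ^ k) {j : ℤ}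
    (h : ((q ^ (n + k) : ℕ) : ℤ) ∣ (c : ℤ) * j) : ((q ^ n : ℕ) : ℤ) ∣ j := by
  obtain ⟨t, c', hc', rfl⟩ := Nat.exists_eq_pow_mul_and_not_dvd hc q hq.ne_one
  have htk : t ≤ k := by
    by_contra hlt
    push Not at hlt
    have h1 : q ^ k ≤ q ^ t * c' := by
      have h2 : 0 < c' := Nat.pos_of_ne_zero (by rintro rfl; simp at hc)
      calc q ^ k ≤ q ^ t := Nat.pow_le_pow_right hq.pos hlt.le
        _ ≤ q ^ t * c' := Nat.le_mul_of_pos_right _ h2
    omega
  have hqi : Prime (q : ℤ) := Nat.prime_iff_prime_int.mp hq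
  have h2 : ((q : ℤ) ^ (n + k)) ∣ (q : ℤ) ^ t * (c' * j) := by
    push_cast at h
    rwa [mul_assoc] at h
  have h3 : n + k = t + (n + (k - t)) := by omega
  rw [h3, pow_add] at h2
  have h4 := (mul_dvd_mul_iff_left (pow_ne_zero t hqi.ne_zero)).mp h2
  have h5 : ¬ (q : ℤ) ∣ (c' : ℤ) := fun h => hc' (by exact_mod_cast h)
  have h6 := Prime.pow_dvd_of_dvd_mul_left hqi _ h5 h4
  push_cast
  exact dvd_trans (pow_dvd_pow _ (Nat.le_add_right n _)) h6

variable {R : Type*} [CommRing R] {P : Ideal R} {J : Type*} [AddCommGroup J] [Module R J]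
  [DistribMulAction Γ J] [SMulCommClass Γ R J] {q N : ℕ} {A : ValuationSubring Qb}
  {Jb : Type*} [AddCommGroup Jb] {T : R} {e : ℕ → J → J → Qbˣ} {sp : J →+ Jb}
  {Fr : Jb →+ Jb}
  (hG : GalMod P J q N) (H : LQHyp P J q A T e sp Fr) {n : ℕ}

include hG in
theorem exists_e0 (n : ℕ) : ∃ e0 : R, (∀ x : J, q ^ n • x = 0 → e0 • x ∈ primT P J (q ^ n)) ∧
    ∀ x ∈ primT P J (q ^ n), e0 • x = x := by
  have hfin : Finite (torsR R J q n) := hG.fin n
  obtain ⟨e0, -, h1, h2⟩ := exists_proj (P := P) (Y := torsR R J q n)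
  refine ⟨e0, fun x hx => ?_, fun x hx => ?_⟩
  · obtain ⟨k, hk⟩ := h1 ⟨x, hx⟩
    exact ⟨⟨k, fun a ha => congrArg Subtype.val (hk a ha)⟩, (torsR R J q n).smul_mem e0 hx⟩
  · obtain ⟨⟨k, hk⟩, hx2⟩ := hx
    exact congrArg Subtype.val (h2 ⟨x, hx2⟩ ⟨k, fun a ha => Subtype.ext (hk a ha)⟩)

include hG H

theorem nondegM {z : J} (hz : z ∈ primT P J (q ^ n))
    (h : ∀ x ∈ primT P J (q ^ n), e n x z = 1) : z = 0 := by
  obtain ⟨e0, h1, h2⟩ := exists_e0 hG n
  refine H.nondeg n z hz.2 fun y hy => ?_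
  rw [H.symm n y z hy hz.2, inv_eq_one]
  have h3 : e n y z = e n y (e0 • z) := by rw [h2 z hz]
  rw [h3, ← H.hecke n e0 y z hy hz.2]
  exact h _ (h1 y hy)

/-- inertia acts on the kernel of reduction through the cyclotomic character -/
theorem smul_ker {s : Γ} (hs : s ∈ A.inertiaSubgroupIn ℚ) {k : ℕ}
    (hk : ∀ ζ : Qb, ζ ^ q ^ n = 1 → s ζ = ζ ^ k) {y : J} (hy : y ∈ primT P J (q ^ n))
    (hy0 : sp y = 0) : s • y = k • y := by
  rw [← sub_eq_zero]
  apply nondegM hG H (n := n) (sub_mem (smul_mem_primT s hy) (nsmul_mem hy k))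
  intro x hx
  have h1 : e n x (s • y) = s • e n x y := by
    have h2 := H.gal n (s⁻¹ • x) y s (smul_mem_primT s⁻¹ hx).2 hy.2
    rw [smul_inv_smul] at h2
    rw [h2, e_smul_left H (inv_mem hs) hy hy0 hx]
  have h3 : s • e n x y = e n x y ^ k := by
    apply Units.ext
    rw [Units.val_pow_eq_pow_val]
    refine hk _ ?_
    rw [← Units.val_pow_eq_pow_val, H.pow n x y hx.2 hy.2, Units.val_one]
  rw [e_sub_right H hx.2 (smul_mem_primT s hy).2 (nsmul_mem hy k).2, h1, h3,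
    e_nsmul_right H k hx.2 hy.2, div_self']

theorem V.ker_left {a b : J} (ha : a ∈ primT P J (q ^ n)) (ha0 : sp a = 0)
    (hb : b ∈ primT P J (q ^ n)) : V A e q n a b 0 := by
  refine HasVal.of_root (z := e n a b) (m := q ^ n) (pow_ne_zero _ hG.hq.ne_zero)
    (H.pow n a b ha.2 hb.2) fun s hs => ?_
  obtain ⟨k, hk⟩ := exists_cyc s (m := q ^ n) (pow_ne_zero _ hG.hq.ne_zero)
  rw [smul_ker hG H hs hk ha ha0, e_sub_left H (nsmul_mem ha k).2 ha.2 hb.2,
    e_nsmul_left H k ha.2 hb.2]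
  congr 1
  apply Units.ext
  rw [Units.val_pow_eq_pow_val]
  refine (hk _ ?_).symm
  rw [← Units.val_pow_eq_pow_val, H.pow n a b ha.2 hb.2, Units.val_one]

/-- the Eichler–Shimura relation -/
theorem es_mem {φ : Γ} (hφ : A.IsFrobeniusAt φ q) (a : J) :
    sp (T • φ • a - φ • φ • a - q • a) = 0 := by
  rw [map_sub, map_sub, map_nsmul, ← smul_comm φ T a, H.frob φ hφ, H.es, H.frob φ hφ, H.frob φ hφ,
    add_sub_cancel_left, sub_self]

theorem swap {φ : Γ} (hφ : A.IsFrobeniusAt φ q) {a b : J} (ha : a ∈ primT P J (q ^ n))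
    (hb : b ∈ primT P J (q ^ n)) {j₁ j₂ : ℤ} (h1 : V A e q n a (φ • b) j₁)
    (h2 : V A e q n (φ • a) b j₂) : ((q ^ n : ℕ) : ℤ) ∣ j₁ - j₂ := by
  have hφA : φ • A = A := hφ.mem_decompositionSubgroup
  have hφa := smul_mem_primT φ ha
  have hφb := smul_mem_primT φ hb
  have hφφa := smul_mem_primT φ hφa
  have hφφb := smul_mem_primT φ hφb
  have hqa := nsmul_mem ha q
  have hqb := nsmul_mem hb q
  have hTa : T • φ • a ∈ primT P J (q ^ n) := Submodule.smul_mem _ T hφa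
  have hTb : T • φ • b ∈ primT P J (q ^ n) := Submodule.smul_mem _ T hφb
  -- first computation
  have e1 : V A e q n (T • φ • a) (φ • b) (j₂ + q * j₁ + 0) := by
    have h3 : V A e q n (φ • φ • a) (φ • b) j₂ := V.frob hG H (good_of_mem hφa) hb hφA h2
    have h4 : V A e q n (q • a) (φ • b) (q * j₁) := V.nsmul_left H (good_of_mem ha) hφb q h1
    have h5 : V A e q n (T • φ • a - φ • φ • a - q • a) (φ • b) 0 :=
      V.ker_left hG H (sub_mem (sub_mem hTa hφφa) hqa) (es_mem hG H hφ a) hφb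
    have h6 := V.add_left hG H (good_of_mem (add_mem hφφa hqa))
      (good_of_mem (sub_mem (sub_mem hTa hφφa) hqa)) hφb
      (V.add_left hG H (good_of_mem hφφa) (good_of_mem hqa) hφb h3 h4) h5
    have h7 : φ • φ • a + q • a + (T • φ • a - φ • φ • a - q • a) = T • φ • a := by abel
    rwa [h7] at h6
  have e2 : V A e q n (φ • a) (T • φ • b) (j₁ + q * j₂ + 0) := by
    have h3 : V A e q n (φ • a) (φ • φ • b) j₁ := V.frob hG H (good_of_mem ha) hφb hφA h1
    have h4 : V A e q n (φ • a) (q • b) (q * j₂) := V.nsmul_right H (good_of_mem hφa) hb q h2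
    have h5 : V A e q n (φ • a) (T • φ • b - φ • φ • b - q • b) 0 :=
      V.ker_right H (good_of_mem hφa) (sub_mem (sub_mem hTb hφφb) hqb) (es_mem hG H hφ b)
    have h6 := V.add_right hG H (good_of_mem hφa) (add_mem hφφb hqb)
      (sub_mem (sub_mem hTb hφφb) hqb)
      (V.add_right hG H (good_of_mem hφa) hφφb hqb h3 h4) h5
    have h7 : φ • φ • b + q • b + (T • φ • b - φ • φ • b - q • b) = T • φ • b := by abel
    rwa [h7] at h6
  have h3 := V.unique hG H ((V.hecke H (good_of_mem hφa) hφb T).mp e1) e2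
  have h4 : (j₂ + q * j₁ + 0 - (j₁ + q * j₂ + 0)) = ((q : ℤ) - 1) * (j₁ - j₂) := by ring
  rw [h4] at h3
  have h5 : IsCoprime (((q ^ n : ℕ) : ℤ)) ((q : ℤ) - 1) := by
    push_cast
    apply IsCoprime.pow_left
    exact ⟨1, -1, by ring⟩
  exact h5.dvd_of_dvd_mul_left h3

theorem frob_sub {φ : Γ} (hφ : A.IsFrobeniusAt φ q) {a b : J} (ha : a ∈ primT P J (q ^ n))
    (hb : b ∈ primT P J (q ^ n)) {j : ℤ} (h : V A e q n a (φ • φ • b - b) j) :
    ((q ^ n : ℕ) : ℤ) ∣ j := by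
  have hφA : φ • A = A := hφ.mem_decompositionSubgroup
  have hφb := smul_mem_primT φ hb
  have hφφb := smul_mem_primT φ hφb
  obtain ⟨j0, h0⟩ := V.exists hG H (good_of_mem ha) hb
  obtain ⟨j1, h1⟩ := V.exists hG H (good_of_mem ha) hφφb
  have h2 : V A e q n (φ • a) (φ • b) j0 := V.frob hG H (good_of_mem ha) hb hφA h0
  have h3 := swap hG H hφ ha hφb h1 h2
  have h4 := V.unique hG H h (V.sub_right hG H (good_of_mem ha) hφφb hb h1 h0)
  have h5 := dvd_add h4 h3
  rwa [sub_add_cancel] at h5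

/-- the group of fixed points of `Fr ^ 2` -/
def fixG (Fr : Jb →+ Jb) : AddSubgroup Jb := (Fr.comp Fr - AddMonoidHom.id Jb).ker

omit [CommRing R] hG H in
theorem mem_fixG {Fr : Jb →+ Jb} {z : Jb} : z ∈ fixG Fr ↔ Fr (Fr z) = z := by
  rw [fixG, AddMonoidHom.mem_ker, AddMonoidHom.sub_apply, sub_eq_zero]
  rfl

theorem finite_primT (n : ℕ) : Finite (primT P J (q ^ n)) := by
  have h1 : Finite (torsR R J q n) := hG.fin n
  exact Finite.of_injective (fun x : primT P J (q ^ n) => (⟨x.1, x.2.2⟩ : torsR R J q n))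
    fun a b hab => Subtype.ext (congrArg (fun z : torsR R J q n => (z : J)) hab)

/-- the cokernel of `F ^ 2 - 1` -/
theorem exists_coker {φ : Γ} (hφ : A.IsFrobeniusAt φ q) {b : J} (hb : b ∈ primT P J (q ^ n)) :
    ∃ b' ∈ primT P J (q ^ n), sp (Nat.card (fixG Fr) • b - (φ • φ • b' - b')) = 0 := by
  have hfin := finite_primT hG H n
  let B : AddSubgroup Jb := (primT P J (q ^ n)).toAddSubgroup.map sp
  have hBfin : Finite B := by
    have : Finite ((primT P J (q ^ n)).toAddSubgroup) := hfin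
    exact Finite.of_surjective (fun x : (primT P J (q ^ n)).toAddSubgroup =>
      (⟨sp x, AddSubgroup.mem_map_of_mem sp x.2⟩ : B)) (by
      rintro ⟨_, x, hx, rfl⟩
      exact ⟨⟨x, hx⟩, rfl⟩)
  have hst : ∀ z ∈ B, Fr (Fr z) - z ∈ B := by
    rintro _ ⟨x, hx, rfl⟩
    refine ⟨φ • φ • x - x, sub_mem (smul_mem_primT φ (smul_mem_primT φ hx)) hx, ?_⟩
    rw [map_sub, H.frob φ hφ, H.frob φ hφ]
  let ψ : B →+ B :=
    { toFun := fun z => ⟨Fr (Fr z) - z, hst z z.2⟩
      map_zero' := Subtype.ext (by simp)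
      map_add' := fun x y => Subtype.ext (by
        show Fr (Fr ((x : Jb) + y)) - ((x : Jb) + y) = (Fr (Fr x) - x) + (Fr (Fr y) - y)
        rw [map_add, map_add]; abel) }
  have h1 : ψ.range.index = Nat.card ψ.ker := by
    have h2 := AddSubgroup.card_mul_index ψ.ker
    have h3 := AddSubgroup.card_mul_index ψ.range
    rw [AddSubgroup.index_ker] at h2
    have h4 : 0 < Nat.card ψ.range := Nat.card_pos
    have h5 : Nat.card ψ.range * ψ.range.index = Nat.card ψ.range * Nat.card ψ.ker := by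
      rw [h3, ← h2, mul_comm]
    exact Nat.eq_of_mul_eq_mul_left h4 h5
  have h2 : Nat.card ψ.ker ∣ Nat.card (fixG Fr) := by
    refine AddSubgroup.card_dvd_of_injective (f :=
      { toFun := fun z : ψ.ker => (⟨(z : B), mem_fixG.mpr (by
          have := congrArg Subtype.val (AddMonoidHom.mem_ker.mp z.2)
          exact sub_eq_zero.mp this)⟩ : fixG Fr)
        map_zero' := rfl
        map_add' := fun _ _ => rfl }) ?_
    intro x y hxy
    apply Subtype.ext
    apply Subtype.ext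
    exact congrArg (fun z : fixG Fr => (z : Jb)) hxy
  rw [← h1] at h2
  obtain ⟨d, hd⟩ := h2
  have h3 : Nat.card (fixG Fr) • (⟨sp b, AddSubgroup.mem_map_of_mem sp hb⟩ : B) ∈ ψ.range := by
    rw [hd, mul_comm, mul_smul]
    exact nsmul_mem (AddSubgroup.nsmul_index_mem _ _) d
  obtain ⟨⟨_, b', hb', rfl⟩, h4⟩ := h3
  refine ⟨b', hb', ?_⟩
  have h5 := congrArg (fun z : B => (z : Jb)) h4
  change Fr (Fr (sp b')) - sp b' = Nat.card (fixG Fr) • sp b at h5
  rw [map_sub, map_nsmul, map_sub, H.frob φ hφ, H.frob φ hφ, h5, sub_self]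

theorem coker_dvd {φ : Γ} (hφ : A.IsFrobeniusAt φ q) {y : J} (hy : Good P q n y)
    (hyφ : ∀ b ∈ primT P J (q ^ n), ∀ j : ℤ, V A e q n y (φ • φ • b - b) j →
      ((q ^ n : ℕ) : ℤ) ∣ j)
    {b : J} (hb : b ∈ primT P J (q ^ n)) {j : ℤ} (h : V A e q n y b j) :
    ((q ^ n : ℕ) : ℤ) ∣ (Nat.card (fixG Fr) : ℤ) * j := by
  obtain ⟨b', hb', hsp⟩ := exists_coker hG H hφ hb
  set c := Nat.card (fixG Fr)
  have hφb' : φ • φ • b' - b' ∈ primT P J (q ^ n) :=
    sub_mem (smul_mem_primT φ (smul_mem_primT φ hb')) hb'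
  have hcb := nsmul_mem hb c
  obtain ⟨j', h'⟩ := V.exists hG H hy hφb'
  have h1 := hyφ b' hb' j' h'
  have h2 := V.ker_right H hy (sub_mem hcb hφb') hsp
  have h3 := V.add_right hG H hy hφb' (sub_mem hcb hφb') h' h2
  rw [add_sub_cancel, add_zero] at h3
  have h4 := V.unique hG H (V.nsmul_right H hy hb c h) h3
  have h5 := dvd_add h4 h1
  rwa [sub_add_cancel] at h5

/-- **Exactness**: all the valuations vanish. -/
theorem V.dvd {a b : J} (ha : a ∈ primT P J (q ^ n))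
    (hb : b ∈ primT P J (q ^ n)) {j : ℤ} (h : V A e q n a b j) : ((q ^ n : ℕ) : ℤ) ∣ j := by
  obtain ⟨φ, hφ⟩ := Fermat.Agent.Frob.exists_isFrobeniusAt hG.hq H.hA
  have hfix : Finite (fixG Fr) := by
    have h1 := H.fix
    have h2 : {z : Jb | Fr (Fr z) = z} = (fixG Fr : Set Jb) := by
      ext z; exact mem_fixG.symm
    rw [h2] at h1
    exact h1
  set c := Nat.card (fixG Fr) with hc
  have hc0 : c ≠ 0 := Nat.card_pos.ne'
  have hck : c < q ^ c := Nat.lt_pow_self hG.hq.one_lt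
  -- lifting to level `n + c`
  have hle : ∀ x ∈ primT P J (q ^ n), x ∈ primT P J (q ^ (n + c)) := by
    intro x hx
    refine ⟨hx.1, ?_⟩
    rw [pow_add, mul_comm, mul_smul, hx.2, smul_zero]
  have hlift : ∀ x ∈ primT P J (q ^ n), ∃ x' ∈ primT P J (q ^ (n + c)), q ^ c • x' = x := by
    intro x hx
    obtain ⟨e0, h1, h2⟩ := exists_e0 hG (n + c)
    obtain ⟨x0, hx0⟩ := hG.div c x
    refine ⟨e0 • x0, h1 x0 ?_, ?_⟩
    · rw [pow_add, mul_smul, hx0, hx.2]
    · rw [smul_comm, hx0, h2 x (hle x hx)]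
  obtain ⟨a', ha', haa⟩ := hlift a ha
  obtain ⟨b', hb', hbb⟩ := hlift b hb
  obtain ⟨j', h'⟩ := V.exists hG H (good_of_mem ha') hb'
  have h1 := coker_dvd hG H hφ (good_of_mem ha')
    (fun b hb j hj => frob_sub hG H hφ ha' hb hj) hb' h'
  have h2 := pow_dvd_of_dvd_mul hG.hq hc0 hck h1
  have h3 : V A e q n a b j' := by
    obtain ⟨u, hu, huj⟩ := h'
    refine ⟨u ^ q ^ c, fun s hs => ?_, ?_⟩
    · have h4 : q ^ n • (s • a - a) = 0 := (sub_mem (smul_mem_primT s ha) ha).2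
      have h5 : s • a - a = q ^ c • (s • a' - a') := by
        rw [← haa, smul_comm s (q ^ c) a', smul_sub]
      have h6 := hu s hs
      dsimp only at h6 ⊢
      rw [← hbb, H.level n c _ _ h4 hb'.2, h5,
        e_nsmul_left H (q ^ c) (sub_mem (smul_mem_primT s ha') ha').2 hb'.2, h6, smul_pow',
        div_pow]
    · rw [Units.val_pow_eq_pow_val, map_pow, ← pow_mul, ← pow_add, add_comm c n, huj]
  have h4 := dvd_add (V.unique hG H h h3) h2
  rwa [sub_add_cancel] at h4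

/-- every character of `M` is given by the pairing -/
theorem exists_pair (lam : primT P J (q ^ n) →+ Additive Qbˣ) :
    ∃ b ∈ primT P J (q ^ n), ∀ m : primT P J (q ^ n), (lam m).toMul = e n (m : J) b := by
  have hfin := finite_primT hG H n
  let G := Multiplicative (primT P J (q ^ n))
  have hfinG : Finite G := inferInstanceAs (Finite (primT P J (q ^ n)))
  have hexp : NeZero (Monoid.exponent G) := ⟨Monoid.exponent_ne_zero_of_finite⟩
  have hexp' : NeZero ((Monoid.exponent G : ℕ) : Qb) := ⟨Nat.cast_ne_zero.mpr hexp.out⟩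
  have hcard : Nat.card (G →* Qbˣ) = Nat.card G :=
    CommGroup.card_monoidHom_of_hasEnoughRootsOfUnity G Qb
  have hfinH : Finite (G →* Qbˣ) := by
    apply Nat.finite_of_card_ne_zero
    rw [hcard]
    exact Nat.card_pos.ne'
  let Φ : primT P J (q ^ n) → (G →* Qbˣ) := fun b =>
    MonoidHom.mk' (fun x : G => e n ((Multiplicative.toAdd x : primT P J (q ^ n)) : J) b)
      fun x y => H.add_left n _ _ _ (Multiplicative.toAdd x).2.2 (Multiplicative.toAdd y).2.2 b.2.2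
  have hΦ : ∀ (b x : primT P J (q ^ n)), Φ b (Multiplicative.ofAdd x) = e n (x : J) b :=
    fun b x => rfl
  have hinj : Function.Injective Φ := by
    intro b b' hbb
    apply Subtype.ext
    rw [← sub_eq_zero]
    apply nondegM hG H (n := n) (sub_mem b.2 b'.2)
    intro x hx
    have h1 := DFunLike.congr_fun hbb (Multiplicative.ofAdd (⟨x, hx⟩ : primT P J (q ^ n)))
    rw [hΦ, hΦ] at h1
    rw [e_sub_right H hx.2 b.2.2 b'.2.2, div_eq_one]
    exact h1
  have hbij := Function.Injective.bijective_of_nat_card_le hinj (by rw [hcard]; exact le_rfl)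
  obtain ⟨b, hb⟩ := hbij.2 (AddMonoidHom.toMultiplicativeLeft lam)
  refine ⟨b, b.2, fun m => ?_⟩
  rw [← hΦ b m, hb]
  rfl

theorem pr_of_dvd {y : J} (hy : Good P q n y)
    (h : ∀ b ∈ primT P J (q ^ n), ∀ j : ℤ, V A e q n y b j → ((q ^ n : ℕ) : ℤ) ∣ j) :
    PR A (fun s : Γ => (⟨s • y - y, hy s⟩ : primT P J (q ^ n))) := by
  intro lam
  obtain ⟨b, hb, hlam⟩ := exists_pair hG H lam
  obtain ⟨j, hj⟩ := V.exists hG H hy hb
  obtain ⟨u, hu1, hu2⟩ := HasVal.exists_unit hG.hq hj (h b hb j hj)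
  exact ⟨u, hu1, fun s hs => by rw [hlam]; exact hu2 s hs⟩

/-- the valuations for a division point -/
theorem kum_dvd (y : J) (hy : Good P q n y)
    (hx : ∃ x : J, (∀ s : Γ, s • x = x) ∧ q ^ n • y = Nat.card (fixG Fr) • x)
    {b : J} (hb : b ∈ primT P J (q ^ n)) {j : ℤ} (h : V A e q n y b j) :
    ((q ^ n : ℕ) : ℤ) ∣ j := by
  obtain ⟨x, hx, hxy⟩ := hx
  obtain ⟨φ, hφ⟩ := Fermat.Agent.Frob.exists_isFrobeniusAt hG.hq H.hA
  have hφA : φ • A = A := hφ.mem_decompositionSubgroup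
  set c := Nat.card (fixG Fr) with hc
  obtain ⟨e0, h1, h2⟩ := exists_e0 hG n
  obtain ⟨y0, hy0⟩ := hG.div n x
  have hy0s : ∀ s : Γ, q ^ n • (s • y0 - y0) = 0 := by
    intro s
    rw [smul_sub, ← smul_comm s (q ^ n) y0, hy0, hx s, sub_self]
  have hy1 : Good P q n (e0 • y0) := by
    intro s
    rw [smul_comm s e0 y0, ← smul_sub]
    exact h1 _ (hy0s s)
  -- the valuations for `y1`
  have hstep : ∀ b ∈ primT P J (q ^ n), ∀ j j' : ℤ, V A e q n (e0 • y0) b j →
      V A e q n (e0 • y0) (φ • b) j' → ((q ^ n : ℕ) : ℤ) ∣ j' - j := by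
    intro b hb j j' hj hj'
    have hm : φ⁻¹ • (e0 • y0) - e0 • y0 ∈ primT P J (q ^ n) := hy1 φ⁻¹
    obtain ⟨jm, hjm⟩ := V.exists hG H (good_of_mem hm) hb
    have h3 := V.add_left hG H hy1 (good_of_mem hm) hb hj hjm
    rw [add_sub_cancel] at h3
    have h4 := V.frob hG H (hy1.smulG φ⁻¹) hb hφA h3
    rw [smul_inv_smul] at h4
    have h5 := dvd_add (V.unique hG H hj' h4) (V.dvd hG H hm hb hjm)
    have h6 : j' - (j + jm) + jm = j' - j := by ring
    rwa [h6] at h5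
  have hsub : ∀ b ∈ primT P J (q ^ n), ∀ j : ℤ, V A e q n (e0 • y0) (φ • φ • b - b) j →
      ((q ^ n : ℕ) : ℤ) ∣ j := by
    intro b hb j hj
    have hφb := smul_mem_primT φ hb
    have hφφb := smul_mem_primT φ hφb
    obtain ⟨j0, h0⟩ := V.exists hG H hy1 hb
    obtain ⟨j1, h1'⟩ := V.exists hG H hy1 hφb
    obtain ⟨j2, h2'⟩ := V.exists hG H hy1 hφφb
    have h3 := V.unique hG H hj (V.sub_right hG H hy1 hφφb hb h2' h0)
    have h4 := hstep b hb j0 j1 h0 h1'
    have h5 := hstep _ hφb j1 j2 h1' h2'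
    have h6 := dvd_add (dvd_add h3 h4) h5
    have h7 : j - (j2 - j0) + (j1 - j0) + (j2 - j1) = j := by ring
    rwa [h7] at h6
  -- decomposition of `y`
  have ht : q ^ n • (y - c • y0) = 0 := by
    rw [smul_sub, hxy, smul_comm (q ^ n) c y0, hy0, sub_self]
  have ht1 : e0 • (y - c • y0) ∈ primT P J (q ^ n) := h1 _ ht
  have hfix : ∀ s : Γ, s • (y - e0 • y) = y - e0 • y := by
    intro s
    have h3 := h2 _ (hy s)
    rw [smul_sub] at h3
    rw [smul_sub, smul_comm s e0 y, ← sub_eq_zero]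
    rw [← sub_eq_zero] at h3
    rw [← neg_eq_zero, ← h3]
    abel
  have hdec : (y - e0 • y) + c • (e0 • y0) + e0 • (y - c • y0) = y := by
    rw [smul_sub, smul_comm e0 c y0]
    abel
  obtain ⟨j1, hj1⟩ := V.exists hG H hy1 hb
  obtain ⟨jt, hjt⟩ := V.exists hG H (good_of_mem ht1) hb
  have h3 := V.add_left hG H ((Good.of_fixed hfix).add (hy1.nsmul c)) (good_of_mem ht1) hb
    (V.add_left hG H (Good.of_fixed hfix) (hy1.nsmul c) hb (V.of_fixed H hfix hb)
      (V.nsmul_left H hy1 hb c hj1)) hjt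
  rw [hdec] at h3
  have h4 := V.unique hG H h h3
  have h5 := coker_dvd hG H hφ hy1 hsub hb hj1
  have h6 := V.dvd hG H ht1 hb hjt
  have h7 := dvd_add (dvd_add h4 h5) h6
  have h8 : j - (0 + (c : ℤ) * j1 + jt) + (c : ℤ) * j1 + jt = j := by ring
  rwa [h8] at h7

variable (P J n sp) in
omit [DistribMulAction Γ J] [SMulCommClass Γ R J] hG H in
/-- the kernel of reduction -/
def kerSp : AddSubgroup (primT P J (q ^ n)) :=
  (sp.comp (primT P J (q ^ n)).toAddSubgroup.subtype).ker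

omit [DistribMulAction Γ J] [SMulCommClass Γ R J] hG H in
theorem mem_kerSp {m : primT P J (q ^ n)} : m ∈ kerSp (q := q) P J sp n ↔ sp (m : J) = 0 :=
  Iff.rfl

theorem card_kerSp : (Nat.card (kerSp (q := q) P J sp n)) ^ 2 ≤ Nat.card (primT P J (q ^ n)) := by
  have hfin := finite_primT hG H n
  let K := kerSp (q := q) P J sp n
  let G := Multiplicative (primT P J (q ^ n) ⧸ K)
  have hfinQ : Finite (primT P J (q ^ n) ⧸ K) := inferInstance
  have hfinG : Finite G := hfinQ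
  have hexp : NeZero (Monoid.exponent G) := ⟨Monoid.exponent_ne_zero_of_finite⟩
  have hexp' : NeZero ((Monoid.exponent G : ℕ) : Qb) := ⟨Nat.cast_ne_zero.mpr hexp.out⟩
  have hcard : Nat.card (G →* Qbˣ) = Nat.card G :=
    CommGroup.card_monoidHom_of_hasEnoughRootsOfUnity G Qb
  have hfinH : Finite (G →* Qbˣ) := by
    apply Nat.finite_of_card_ne_zero
    rw [hcard]
    exact Nat.card_pos.ne'
  let pre : K → (primT P J (q ^ n) →+ Additive Qbˣ) := fun b =>
    AddMonoidHom.mk' (fun x => Additive.ofMul (e n (x : J) (b : primT P J (q ^ n)))) fun x y =>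
      congrArg Additive.ofMul (H.add_left n _ _ _ x.2.2 y.2.2 b.1.2.2)
  let Φ : K → (G →* Qbˣ) := fun b =>
    AddMonoidHom.toMultiplicativeLeft (QuotientAddGroup.lift K (pre b) (fun x hx =>
      congrArg Additive.ofMul (H.iso n _ _ x.2 b.1.2 hx b.2)))
  have hinj : Function.Injective Φ := by
    intro b b' hbb
    apply Subtype.ext
    apply Subtype.ext
    rw [← sub_eq_zero]
    apply nondegM hG H (n := n) (sub_mem b.1.2 b'.1.2)
    intro x hx
    have h1 := DFunLike.congr_fun hbb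
      (Multiplicative.ofAdd (QuotientAddGroup.mk (⟨x, hx⟩ : primT P J (q ^ n))))
    change e n x (b : primT P J (q ^ n)) = e n x (b' : primT P J (q ^ n)) at h1
    rw [e_sub_right H hx.2 b.1.2.2 b'.1.2.2, div_eq_one]
    exact h1
  have h1 : Nat.card K ≤ Nat.card (primT P J (q ^ n) ⧸ K) := by
    have h2 := Nat.card_le_card_of_injective Φ hinj
    rw [hcard] at h2
    exact h2
  have h3 := AddSubgroup.card_eq_card_quotient_mul_card_addSubgroup K
  rw [h3, sq]
  exact Nat.mul_le_mul_right _ h1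

omit hG H in
/-- **BLOCK LQ-B.** -/
theorem locQ_of_hyp (hG : GalMod P J q N) (H : LQHyp P J q A T e sp Fr) : LQOut P J q A := by
  have hfix : Finite (fixG Fr) := by
    have h1 := H.fix
    have h2 : {z : Jb | Fr (Fr z) = z} = (fixG Fr : Set Jb) := by
      ext z; exact mem_fixG.symm
    rw [h2] at h1
    exact h1
  have hc0 : Nat.card (fixG Fr) ≠ 0 := Nat.card_pos.ne'
  refine ⟨Nat.card (fixG Fr), hc0, fun n => ⟨kerSp P J sp n, ?_⟩⟩
  refine ⟨fun s hs m => ?_, fun s hs => ?_, ?_, fun a => ?_, fun y hy hx => ⟨fun s hs => ?_, ?_⟩⟩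
  · exact iner_sub H hs (m : J)
  · obtain ⟨k, hk⟩ := exists_cyc s (m := q ^ (n + 1)) (pow_ne_zero _ hG.hq.ne_zero)
    refine ⟨k, fun ζ hζ => hk ζ ?_, fun m hm => ?_⟩
    · rw [pow_succ', pow_mul, hζ, one_pow]
    · apply Subtype.ext
      refine smul_ker hG H hs (n := n) (fun ζ hζ => hk ζ ?_) m.2 hm
      rw [pow_succ, pow_mul, hζ, one_pow]
  · refine (card_kerSp hG H).trans ?_
    exact Nat.le_mul_of_pos_left _ (Nat.pos_of_ne_zero hc0)
  · exact pr_of_dvd hG H (good_of_mem a.2) fun b hb j hj => V.dvd hG H a.2 hb hj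
  · exact iner_sub H hs y
  · exact pr_of_dvd hG H hy fun b hb j hj => kum_dvd hG H y hy hx hb hj

end Fermat.Agent.MazLQB
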