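import Fermat.Agent.SEL.Step

/-!
# Kummer cocycles on the inertia group and their valuations
-/

set_option autoImplicit false

open scoped Pointwise
open Fermat.Agent.Frob Fermat.Agent.SEL

namespace Fermat.Agent.MazLQB

-- use the algebra structures coming from `Ω`
attribute [-instance] DivisionRing.toRatAlgebra

variable {Ω : Type*} [Field Ω] [Algebra ℚ Ω]

/-- Hilbert 90 for continuous cocycles of a subgroup of the Galois group of `Ω/ℚ`. -/
theorem hilbert90_subgroup (I : Subgroup (Ω ≃ₐ[ℚ] Ω)) (g : (Ω ≃ₐ[ℚ] Ω) → Ωˣ)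
    (hg : ∀ s ∈ I, ∀ t ∈ I, g (s * t) = g s * s • g t)
    (hc : ∃ E : IntermediateField ℚ Ω, FiniteDimensional ℚ E ∧
      ∀ s ∈ E.fixingSubgroup, s ∈ I → g s = 1) :
    ∃ u : Ωˣ, ∀ s ∈ I, g s = s • u / u := by
  classical
  obtain ⟨E, hfin, hE⟩ := hc
  have hchar : CharZero Ω := charZero_of_algebra
  let res : I → (E →ₐ[ℚ] Ω) := fun s => ((s : Ω ≃ₐ[ℚ] Ω) : Ω →ₐ[ℚ] Ω).comp E.val
  have hres : ∀ (s : I) (x : E), res s x = (s : Ω ≃ₐ[ℚ] Ω) (x : Ω) := fun s x => rfl
  let S : Set (E →ₐ[ℚ] Ω) := Set.range res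
  have hSfin : Finite S := inferInstance
  have : Fintype S := Fintype.ofFinite _
  let rep : S → I := fun τ => τ.2.choose
  have hrep : ∀ τ, res (rep τ) = τ := fun τ => τ.2.choose_spec
  have hdep : ∀ s t : I, res s = res t → g s = g t := by
    intro s t hst
    have h1 : (s : Ω ≃ₐ[ℚ] Ω)⁻¹ * t ∈ E.fixingSubgroup := by
      rw [IntermediateField.mem_fixingSubgroup_iff]
      intro x hx
      have h2 := DFunLike.congr_fun hst ⟨x, hx⟩
      rw [hres, hres] at h2
      rw [AlgEquiv.mul_apply, ← h2]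
      exact (s : Ω ≃ₐ[ℚ] Ω).symm_apply_apply x
    have h2 : (t : Ω ≃ₐ[ℚ] Ω) = s * ((s : Ω ≃ₐ[ℚ] Ω)⁻¹ * t) := by group
    rw [h2, hg _ s.2 _ (mul_mem (inv_mem s.2) t.2), hE _ h1 (mul_mem (inv_mem s.2) t.2), smul_one,
      mul_one]
  -- Dedekind
  obtain ⟨x, hx⟩ : ∃ x : E, ∑ τ : S, ((g (rep τ) : Ωˣ) : Ω) * (τ : E →ₐ[ℚ] Ω) x ≠ 0 := by
    by_contra hcon
    push Not at hcon
    have hli := linearIndependent_monoidHom E Ω
    have hinj : Function.Injective (fun τ : S => ((τ : E →ₐ[ℚ] Ω) : E →* Ω)) := by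
      intro a b hab
      apply Subtype.ext
      apply AlgHom.ext
      intro x
      exact DFunLike.congr_fun hab x
    have h1 := (Fintype.linearIndependent_iff.mp (hli.comp _ hinj))
      (fun τ : S => ((g (rep τ) : Ωˣ) : Ω)) (by
        funext x
        rw [Finset.sum_apply]
        exact hcon x) ⟨res 1, 1, rfl⟩
    exact Units.ne_zero _ h1
  set β : Ω := ∑ τ : S, ((g (rep τ) : Ωˣ) : Ω) * (τ : E →ₐ[ℚ] Ω) x with hβ
  have key : ∀ t ∈ I, (g t : Ω) * t β = β := by
    intro t ht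
    let perm : S → S := fun τ => ⟨res (⟨t, ht⟩ * rep τ), ⟨_, rfl⟩⟩
    have hperm : ∀ (τ : S) (y : E), (perm τ : E →ₐ[ℚ] Ω) y = t ((τ : E →ₐ[ℚ] Ω) y) := by
      intro τ y
      show res (⟨t, ht⟩ * rep τ) y = _
      rw [hres, ← hrep τ, hres]
      rfl
    have hbij : Function.Bijective perm := by
      refine (Finite.injective_iff_bijective).mp ?_
      intro a b hab
      apply Subtype.ext
      apply AlgHom.ext
      intro y
      have h1 := congrArg (fun τ : S => (τ : E →ₐ[ℚ] Ω) y) hab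
      simp only [hperm] at h1
      exact t.injective h1
    rw [hβ, map_sum, Finset.mul_sum]
    have h2 : ∀ τ : S, (g t : Ω) * t (((g (rep τ) : Ωˣ) : Ω) * (τ : E →ₐ[ℚ] Ω) x) =
        ((g (rep (perm τ)) : Ωˣ) : Ω) * (perm τ : E →ₐ[ℚ] Ω) x := by
      intro τ
      have h3 : g (rep (perm τ)) = g t * t • g (rep τ) := by
        rw [← hg t ht _ (rep τ).2]
        exact hdep (rep (perm τ)) (⟨t, ht⟩ * rep τ) (hrep _)
      rw [h3, hperm, map_mul, Units.val_mul, ← mul_assoc]
      rfl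
    rw [Finset.sum_congr rfl fun τ _ => h2 τ]
    exact Function.Bijective.sum_comp hbij
      (fun τ : S => ((g (rep τ) : Ωˣ) : Ω) * (τ : E →ₐ[ℚ] Ω) x)
  refine ⟨(Units.mk0 β hx)⁻¹, fun s hs => ?_⟩
  rw [smul_inv', div_inv_eq_mul, eq_comm, mul_comm, ← div_eq_mul_inv, div_eq_iff_eq_mul]
  apply Units.ext
  rw [Units.val_mul]
  exact (key s hs).symm

/-- The cocycle `g` is on the inertia group at `A` the Kummer cocycle of `u` with
`v(u ^ (q ^ n)) = j v(q)`. -/
def HasVal (A : ValuationSubring Ω) (q n : ℕ) (g : (Ω ≃ₐ[ℚ] Ω) → Ωˣ) (j : ℤ) : Prop :=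
  ∃ u : Ωˣ, (∀ s ∈ A.inertiaSubgroupIn ℚ, g s = s • u / u) ∧
    A.valuation (u : Ω) ^ (q ^ n) = A.valuation (q : Ω) ^ j

variable {A : ValuationSubring Ω} {q n : ℕ} {g g' : (Ω ≃ₐ[ℚ] Ω) → Ωˣ} {j j' : ℤ}

theorem HasVal.congr (h : HasVal A q n g j) (hgg : ∀ s ∈ A.inertiaSubgroupIn ℚ, g' s = g s) :
    HasVal A q n g' j := by
  obtain ⟨u, hu, hj⟩ := h
  exact ⟨u, fun s hs => by rw [hgg s hs, hu s hs], hj⟩

theorem valuation_natCast_ne_zero (hq : q ≠ 0) : A.valuation (q : Ω) ≠ 0 := by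
  have hchar : CharZero Ω := charZero_of_algebra
  exact (Valuation.ne_zero_iff _).mpr (Nat.cast_ne_zero.mpr hq)

theorem HasVal.mul (hq : q ≠ 0) (h : HasVal A q n g j) (h' : HasVal A q n g' j') :
    HasVal A q n (fun s => g s * g' s) (j + j') := by
  obtain ⟨u, hu, hj⟩ := h
  obtain ⟨u', hu', hj'⟩ := h'
  refine ⟨u * u', fun s hs => ?_, ?_⟩
  · dsimp only
    rw [hu s hs, hu' s hs, smul_mul', mul_div_mul_comm]
  · rw [Units.val_mul, map_mul, mul_pow, hj, hj', zpow_add₀ (valuation_natCast_ne_zero hq)]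

theorem HasVal.inv (h : HasVal A q n g j) : HasVal A q n (fun s => (g s)⁻¹) (-j) := by
  obtain ⟨u, hu, hj⟩ := h
  refine ⟨u⁻¹, fun s hs => ?_, ?_⟩
  · dsimp only
    rw [hu s hs, smul_inv', inv_div_inv, inv_div]
  · rw [Units.val_inv_eq_inv_val, map_inv₀, inv_pow, hj, zpow_neg]

theorem HasVal.pow (h : HasVal A q n g j) (k : ℕ) :
    HasVal A q n (fun s => g s ^ k) (k * j) := by
  obtain ⟨u, hu, hj⟩ := h
  refine ⟨u ^ k, fun s hs => ?_, ?_⟩
  · dsimp only
    rw [hu s hs, smul_pow', div_pow]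
  · rw [Units.val_pow_eq_pow_val, map_pow, ← pow_mul, mul_comm, pow_mul, hj, mul_comm (k : ℤ) j,
      zpow_mul, zpow_natCast]

theorem HasVal.one : HasVal A q n (fun _ => 1) 0 :=
  ⟨1, fun s _ => by simp, by simp⟩

/-- a coboundary of a root of unity -/
theorem HasVal.of_root {z : Ωˣ} {m : ℕ} (hm : m ≠ 0) (hz : z ^ m = 1)
    (h : ∀ s ∈ A.inertiaSubgroupIn ℚ, g s = s • z / z) : HasVal A q n g 0 := by
  refine ⟨z, h, ?_⟩
  have h1 : A.valuation (z : Ω) ^ m = 1 := by
    rw [← map_pow, ← Units.val_pow_eq_pow_val, hz, Units.val_one, map_one]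
  rw [(pow_eq_one_iff.mp h1).resolve_right hm, one_pow, zpow_zero]

variable [IsGalois ℚ Ω]

theorem HasVal.unique (hq : q.Prime) (hA : A.LiesOverPrime q) (h : HasVal A q n g j)
    (h' : HasVal A q n g j') : ((q ^ n : ℕ) : ℤ) ∣ j - j' := by
  obtain ⟨u, hu, hj⟩ := h
  obtain ⟨u', hu', hj'⟩ := h'
  obtain ⟨i, hi⟩ := exists_valuation_zpow_of_inertia A hq hA (z := ((u / u' : Ωˣ) : Ω))
    (Units.ne_zero _) (by
      intro s hs
      have h1 : s • (u / u') = u / u' := by
        have h2 := hu s hs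
        rw [hu' s hs] at h2
        rw [smul_div', div_eq_div_iff_mul_eq_mul]
        rw [div_eq_div_iff_mul_eq_mul] at h2
        rw [← h2, mul_comm]
      exact congrArg Units.val h1)
  have hv0 := valuation_natCast_ne_zero (A := A) hq.ne_zero
  have h3 : A.valuation (q : Ω) ^ (j - j') = A.valuation (q : Ω) ^ (i * (q ^ n : ℕ)) := by
    rw [zpow_sub₀ hv0, ← hj, ← hj', zpow_mul, ← hi, zpow_natCast, Units.val_div_eq_div_val,
      map_div₀, div_pow]
  have h4 := zpow_right_injective₀ (zero_lt_iff.mpr hv0) (valuation_lt_one hA).ne h3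
  exact ⟨i, by rw [h4, mul_comm]⟩

theorem HasVal.exists (hq : q.Prime) (hA : A.LiesOverPrime q)
    (hg : ∀ s ∈ A.inertiaSubgroupIn ℚ, ∀ t ∈ A.inertiaSubgroupIn ℚ, g (s * t) = g s * s • g t)
    (hgq : ∀ s ∈ A.inertiaSubgroupIn ℚ, g s ^ q ^ n = 1)
    (hc : ∃ E : IntermediateField ℚ Ω, FiniteDimensional ℚ E ∧
      ∀ s ∈ E.fixingSubgroup, s ∈ A.inertiaSubgroupIn ℚ → g s = 1) :
    ∃ j : ℤ, HasVal A q n g j := by
  obtain ⟨u, hu⟩ := hilbert90_subgroup (A.inertiaSubgroupIn ℚ) g hg hc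
  obtain ⟨j, hj⟩ := exists_valuation_zpow_of_inertia A hq hA (z := ((u ^ q ^ n : Ωˣ) : Ω))
    (Units.ne_zero _) (by
      intro s hs
      have h1 : s • (u ^ q ^ n) = u ^ q ^ n := by
        have h2 := hgq s hs
        rw [hu s hs, div_pow, div_eq_one] at h2
        rw [smul_pow', h2]
      exact congrArg Units.val h1)
  refine ⟨j, u, hu, ?_⟩
  rw [← hj, Units.val_pow_eq_pow_val, map_pow]

omit [IsGalois ℚ Ω] in
/-- valuation divisible by `q ^ n`: the cocycle comes from a unit. -/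
theorem HasVal.exists_unit (hq : q.Prime) (h : HasVal A q n g j)
    (hj : ((q ^ n : ℕ) : ℤ) ∣ j) : ∃ u : Ωˣ, A.valuation (u : Ω) = 1 ∧
      ∀ s ∈ A.inertiaSubgroupIn ℚ, g s = s • u / u := by
  obtain ⟨u, hu, hv⟩ := h
  obtain ⟨i, rfl⟩ := hj
  have hchar : CharZero Ω := charZero_of_algebra
  have hv0 := valuation_natCast_ne_zero (A := A) hq.ne_zero
  let r : Ωˣ := Units.mk0 (q : Ω) (Nat.cast_ne_zero.mpr hq.ne_zero)
  have hr : ∀ s : Ω ≃ₐ[ℚ] Ω, s • r = r := by
    intro s
    apply Units.ext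
    exact map_natCast s q
  refine ⟨u * (r ^ i)⁻¹, ?_, fun s hs => ?_⟩
  · have h1 : A.valuation ((u * (r ^ i)⁻¹ : Ωˣ) : Ω) ^ (q ^ n) = 1 := by
      rw [Units.val_mul, Units.val_inv_eq_inv_val, Units.val_zpow_eq_zpow_val, map_mul, map_inv₀,
        map_zpow₀, mul_pow, hv, inv_pow]
      show A.valuation (q : Ω) ^ (((q ^ n : ℕ) : ℤ) * i) * ((A.valuation (q : Ω) ^ i) ^ q ^ n)⁻¹ = 1
      rw [← zpow_natCast, ← zpow_mul, mul_comm i, mul_inv_cancel₀ (zpow_ne_zero _ hv0)]
    exact (pow_eq_one_iff.mp h1).resolve_right (pow_ne_zero _ hq.ne_zero)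
  · rw [hu s hs, smul_mul', smul_inv', smul_zpow', hr, mul_div_mul_right_eq_div]

omit [IsGalois ℚ Ω] in
theorem HasVal.of_unit {u : Ωˣ} (hu : A.valuation (u : Ω) = 1)
    (h : ∀ s ∈ A.inertiaSubgroupIn ℚ, g s = s • u / u) : HasVal A q n g 0 :=
  ⟨u, h, by rw [hu, one_pow, zpow_zero]⟩

omit [Algebra ℚ Ω] [IsGalois ℚ Ω] [Field Ω] in
/-- Elements of the decomposition group preserve the valuation (algebraic extensions). -/
theorem valuation_smul_dec {k L : Type*} [Field k] [Field L] [Algebra k L]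
    [Algebra.IsAlgebraic k L]
    (A : ValuationSubring L) {σ : L ≃ₐ[k] L} (hσ : σ ∈ A.decompositionSubgroup k) (x : L) :
    A.valuation (σ x) = A.valuation x := by
  have hmem : (σ • A : ValuationSubring L) = A := hσ
  set s : L ≃ₐ[k] L := σ with hs
  have hA : ∀ y, s y ∈ A ↔ y ∈ A := by
    intro y
    constructor
    · intro h
      have : s • y ∈ s • A := by rw [hmem]; exact h
      exact (ValuationSubring.smul_mem_pointwise_smul_iff).mp this
    · intro h
      have : s • y ∈ s • A := (ValuationSubring.smul_mem_pointwise_smul_iff).mpr h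
      rw [hmem] at this
      exact this
  have hle : ∀ y z, A.valuation (s y) ≤ A.valuation (s z) ↔ A.valuation y ≤ A.valuation z := by
    intro y z
    by_cases hz : z = 0
    · subst hz
      simp
    · have hz' : s z ≠ 0 := by simpa using hz
      have p1 : 0 < A.valuation z :=
        lt_of_le_of_ne zero_le (Ne.symm (A.valuation.ne_zero_iff.mpr hz))
      have p2 : 0 < A.valuation (s z) :=
        lt_of_le_of_ne zero_le (Ne.symm (A.valuation.ne_zero_iff.mpr hz'))
      rw [← div_le_one₀ p1, ← div_le_one₀ p2, ← map_div₀, ← map_div₀, ← map_div₀,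
        A.valuation_le_one_iff, A.valuation_le_one_iff]
      exact hA _
  -- the orbit of `x` is finite
  obtain ⟨n, hn, hx⟩ : ∃ n : ℕ, 0 < n ∧ (s ^ n) x = x := by
    have hfin : ((minpoly k x).rootSet L).Finite := (minpoly k x).rootSet_finite L
    have hmaps : ∀ n : ℕ, (s ^ n) x ∈ (minpoly k x).rootSet L := by
      intro n
      rw [Polynomial.mem_rootSet]
      refine ⟨minpoly.ne_zero (Algebra.IsIntegral.isIntegral x), ?_⟩
      have := Polynomial.aeval_algHom_apply ((s ^ n : L ≃ₐ[k] L) : L →ₐ[k] L) x (minpoly k x)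
      rw [minpoly.aeval, _root_.map_zero] at this
      exact this
    obtain ⟨i, -, j, -, hij, hijx⟩ := Set.infinite_univ.exists_ne_map_eq_of_mapsTo
      (s := Set.univ) (t := (minpoly k x).rootSet L) (f := fun n : ℕ => (s ^ n) x)
      (fun n _ => hmaps n) hfin
    have haux : ∀ i j : ℕ, i < j → (s ^ i) x = (s ^ j) x → ∃ n : ℕ, 0 < n ∧ (s ^ n) x = x := by
      intro i j hlt h
      refine ⟨j - i, by omega, ?_⟩
      have : j = i + (j - i) := by omega
      rw [this, pow_add] at h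
      exact ((s ^ i).injective h).symm
    rcases lt_or_gt_of_ne hij with hlt | hlt
    · exact haux i j hlt hijx
    · exact haux j i hlt hijx.symm
  rcases lt_trichotomy (A.valuation (s x)) (A.valuation x) with hlt | heq | hlt
  · exfalso
    have h1 : ∀ m : ℕ, 0 < m → A.valuation ((s ^ m) x) < A.valuation x := by
      intro m hm
      induction m with
      | zero => omega
      | succ m ih =>
        rcases Nat.eq_zero_or_pos m with rfl | hm'
        · simpa using hlt
        · have h2 := ih hm'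
          have h3 : A.valuation (s ((s ^ m) x)) < A.valuation (s x) := by
            rw [← not_le, hle, not_le]; exact h2
          rw [pow_succ']
          exact h3.trans hlt
    have := h1 n hn
    rw [hx] at this
    exact lt_irrefl _ this
  · exact heq
  · exfalso
    have h1 : ∀ m : ℕ, 0 < m → A.valuation x < A.valuation ((s ^ m) x) := by
      intro m hm
      induction m with
      | zero => omega
      | succ m ih =>
        rcases Nat.eq_zero_or_pos m with rfl | hm'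
        · simpa using hlt
        · have h2 := ih hm'
          have h3 : A.valuation (s x) < A.valuation (s ((s ^ m) x)) := by
            rw [← not_le, hle, not_le]; exact h2
          rw [pow_succ']
          exact hlt.trans h3
    have := h1 n hn
    rw [hx] at this
    exact lt_irrefl _ this

/-- Conjugation by an element of the decomposition group. -/
theorem HasVal.conj (hq : q.Prime) (hA : A.LiesOverPrime q) {φ : Ω ≃ₐ[ℚ] Ω} (hφ : φ • A = A)
    (h : HasVal A q n g j) : HasVal A q n (fun s => φ • g (φ⁻¹ * s * φ)) j := by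
  obtain ⟨u, hu, hj⟩ := h
  refine ⟨φ • u, fun s hs => ?_, ?_⟩
  · dsimp only
    rw [hu _ (conj_mem_inertia hq hA (by rw [hφ]; exact hs)), smul_div', smul_smul, smul_smul]
    congr 2
    group
  · have h1 : ((φ • u : Ωˣ) : Ω) = φ (u : Ω) := rfl
    rw [h1, valuation_smul_dec A hφ, hj]

end Fermat.Agent.MazLQB
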