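import Fermat.Agent.MazLQ.Defs
import Fermat.Agent.MazLQB.Val

/-!
# The Kummer pairing on the `P`-primary part of `J[q ^ n]`
-/

set_option autoImplicit false
set_option linter.unusedSectionVars false

noncomputable section

open Fermat.Agent.SEL Fermat.Agent.MzGal Fermat.Agent.MazLQ
open scoped Pointwise

namespace Fermat.Agent.MazLQB

local notation "Qb" => AlgebraicClosure ℚ
local notation "Γ" => (AlgebraicClosure ℚ ≃ₐ[ℚ] AlgebraicClosure ℚ)

/-- the `q ^ n`-torsion as an `R`-submodule -/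
def torsR (R J : Type*) [CommRing R] [AddCommGroup J] [Module R J] (q n : ℕ) : Submodule R J where
  carrier := {x | q ^ n • x = 0}
  zero_mem' := smul_zero _
  add_mem' := fun {a b} ha hb => by
    show q ^ n • (a + b) = 0
    rw [nsmul_add, show q ^ n • a = 0 from ha, show q ^ n • b = 0 from hb, add_zero]
  smul_mem' := fun r x h => by
    show q ^ n • (r • x) = 0
    rw [smul_comm, show q ^ n • x = 0 from h, smul_zero]

theorem mem_torsR {R J : Type*} [CommRing R] [AddCommGroup J] [Module R J] {q n : ℕ} {x : J} :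
    x ∈ torsR R J q n ↔ q ^ n • x = 0 := Iff.rfl

variable {R : Type*} [CommRing R] {P : Ideal R} {J : Type*} [AddCommGroup J] [Module R J]
  [DistribMulAction Γ J] [SMulCommClass Γ R J] {q N : ℕ} {A : ValuationSubring Qb}
  {Jb : Type*} [AddCommGroup Jb] {T : R} {e : ℕ → J → J → Qbˣ} {sp : J →+ Jb}
  {Fr : Jb →+ Jb}

section Bilinear

variable (H : LQHyp P J q A T e sp Fr) {n : ℕ}
include H

/-- the pairing with `y` -/
def pairHom (n : ℕ) (y : J) (hy : q ^ n • y = 0) : torsR R J q n →+ Additive Qbˣ :=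
  AddMonoidHom.mk' (fun x => Additive.ofMul (e n (x : J) y)) fun a b =>
    congrArg Additive.ofMul (H.add_left n a b y a.2 b.2 hy)

theorem e_zero_left {y : J} (hy : q ^ n • y = 0) : e n 0 y = 1 :=
  congrArg Additive.toMul (map_zero (pairHom H n y hy))

theorem e_sub_left {x x' y : J} (hx : q ^ n • x = 0) (hx' : q ^ n • x' = 0) (hy : q ^ n • y = 0) :
    e n (x - x') y = e n x y / e n x' y :=
  congrArg Additive.toMul (map_sub (pairHom H n y hy) (⟨x, hx⟩ : torsR R J q n) ⟨x', hx'⟩)

theorem e_nsmul_left {x y : J} (k : ℕ) (hx : q ^ n • x = 0) (hy : q ^ n • y = 0) :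
    e n (k • x) y = e n x y ^ k :=
  congrArg Additive.toMul (map_nsmul (pairHom H n y hy) k (⟨x, hx⟩ : torsR R J q n))

theorem e_zero_right {x : J} (hx : q ^ n • x = 0) : e n x 0 = 1 := by
  rw [H.symm n 0 x (smul_zero _) hx, e_zero_left H hx, inv_one]

theorem e_nsmul_right {x y : J} (k : ℕ) (hx : q ^ n • x = 0) (hy : q ^ n • y = 0) :
    e n x (k • y) = e n x y ^ k := by
  rw [H.symm n (k • y) x (by rw [smul_comm, hy, smul_zero]) hx, e_nsmul_left H k hy hx,
    H.symm n x y hx hy, inv_pow, inv_inv]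

theorem e_sub_right {x y y' : J} (hx : q ^ n • x = 0) (hy : q ^ n • y = 0)
    (hy' : q ^ n • y' = 0) : e n x (y - y') = e n x y / e n x y' := by
  rw [H.symm n (y - y') x (by rw [smul_sub, hy, hy', sub_zero]) hx, e_sub_left H hy hy' hx,
    H.symm n x y hx hy, H.symm n x y' hx hy', inv_div, div_eq_mul_inv, div_eq_mul_inv, inv_inv,
    mul_comm]

theorem iner_sub {s : Γ} (hs : s ∈ A.inertiaSubgroupIn ℚ) (x : J) : sp (s • x - x) = 0 := by
  rw [map_sub, H.iner s hs, sub_self]

theorem smul_sub_mem (s : Γ) {x : J} (hx : x ∈ primT P J (q ^ n)) :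
    s • x - x ∈ primT P J (q ^ n) := sub_mem (smul_mem_primT s hx) hx

/-- `e(x, b)` only depends on the class of `b` modulo inertia, for `x` in the kernel. -/
theorem e_smul_right {s : Γ} (hs : s ∈ A.inertiaSubgroupIn ℚ) {x b : J}
    (hx : x ∈ primT P J (q ^ n)) (hx0 : sp x = 0) (hb : b ∈ primT P J (q ^ n)) :
    e n x (s • b) = e n x b := by
  have h1 := H.iso n x (s • b - b) hx (smul_sub_mem H s hb) hx0 (iner_sub H hs b)
  rw [e_sub_right H hx.2 (smul_mem_primT s hb).2 hb.2, div_eq_one] at h1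
  exact h1

theorem e_smul_left {s : Γ} (hs : s ∈ A.inertiaSubgroupIn ℚ) {x b : J}
    (hx : x ∈ primT P J (q ^ n)) (hx0 : sp x = 0) (hb : b ∈ primT P J (q ^ n)) :
    e n (s • b) x = e n b x := by
  rw [H.symm n x (s • b) hx.2 (smul_mem_primT s hb).2, H.symm n x b hx.2 hb.2,
    e_smul_right H hs hx hx0 hb]

end Bilinear

/-- elements whose class modulo the `P`-primary part of the torsion is fixed -/
def Good (P : Ideal R) (q n : ℕ) (y : J) : Prop := ∀ s : Γ, s • y - y ∈ primT P J (q ^ n)

theorem good_of_mem {n : ℕ} {y : J} (hy : y ∈ primT P J (q ^ n)) : Good P q n y :=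
  fun s => sub_mem (smul_mem_primT s hy) hy

theorem Good.add {n : ℕ} {y y' : J} (hy : Good P q n y) (hy' : Good P q n y') :
    Good P q n (y + y') := by
  intro s
  have h : s • (y + y') - (y + y') = (s • y - y) + (s • y' - y') := by
    rw [smul_add]; abel
  rw [h]
  exact add_mem (hy s) (hy' s)

theorem Good.smulR {n : ℕ} {y : J} (hy : Good P q n y) (t : R) : Good P q n (t • y) := by
  intro s
  rw [smul_comm s t y, ← smul_sub]
  exact Submodule.smul_mem _ t (hy s)

theorem Good.nsmul {n : ℕ} {y : J} (hy : Good P q n y) (k : ℕ) : Good P q n (k • y) := by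
  intro s
  rw [smul_comm s k y, ← smul_sub]
  exact nsmul_mem (hy s) k

theorem Good.smulG {n : ℕ} {y : J} (hy : Good P q n y) (φ : Γ) : Good P q n (φ • y) := by
  intro s
  have h : s • φ • y - φ • y = φ • ((φ⁻¹ * s * φ) • y - y) := by
    rw [smul_sub, mul_smul, mul_smul, smul_inv_smul]
  rw [h]
  exact smul_mem_primT φ (hy _)

theorem Good.of_fixed {n : ℕ} {y : J} (hy : ∀ s : Γ, s • y = y) : Good P q n y := by
  intro s
  rw [hy s, sub_self]
  exact zero_mem _

/-- the valuation of the Kummer cocycle `s ↦ e(s y - y, b)` -/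
def V (A : ValuationSubring Qb) (e : ℕ → J → J → Qbˣ) (q n : ℕ) (y b : J) (j : ℤ) : Prop :=
  HasVal A q n (fun s : Γ => e n (s • y - y) b) j

section Val

variable (hG : GalMod P J q N) (H : LQHyp P J q A T e sp Fr) {n : ℕ} {y y' b b' : J} {j j' : ℤ}

include H in
theorem cocycle (hy : Good P q n y) (hb : b ∈ primT P J (q ^ n)) {s t : Γ}
    (hs : s ∈ A.inertiaSubgroupIn ℚ) (ht : t ∈ A.inertiaSubgroupIn ℚ) :
    e n ((s * t) • y - y) b = e n (s • y - y) b * s • e n (t • y - y) b := by
  have h1 : (s * t) • y - y = s • (t • y - y) + (s • y - y) := by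
    rw [smul_sub, mul_smul]; abel
  have h2 : s • (t • y - y) ∈ primT P J (q ^ n) := smul_mem_primT s (hy t)
  rw [h1, H.add_left n _ _ _ h2.2 (hy s).2 hb.2, mul_comm]
  congr 1
  have h3 : e n (s • (t • y - y)) b = s • e n (t • y - y) (s⁻¹ • b) := by
    rw [← H.gal n _ _ s (hy t).2 (smul_mem_primT s⁻¹ hb).2, smul_inv_smul]
  rw [h3, e_smul_right H (inv_mem hs) (hy t) (iner_sub H ht y) hb]

include hG H in
theorem V.exists (hy : Good P q n y) (hb : b ∈ primT P J (q ^ n)) : ∃ j : ℤ, V A e q n y b j := by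
  refine HasVal.exists hG.hq H.hA (fun s hs t ht => cocycle H hy hb hs ht)
    (fun s _ => H.pow n _ _ (hy s).2 hb.2) ?_
  obtain ⟨E, hE, hE1⟩ := hG.level y
  refine ⟨E, hE, fun s hs _ => ?_⟩
  rw [hE1 s (by
    intro z hz
    exact (IntermediateField.mem_fixingSubgroup_iff E s).mp hs z hz), sub_self, e_zero_left H hb.2]

include hG H in
theorem V.unique (h : V A e q n y b j) (h' : V A e q n y b j') : ((q ^ n : ℕ) : ℤ) ∣ j - j' :=
  HasVal.unique hG.hq H.hA h h'

include hG H in
theorem V.add_left (hy : Good P q n y) (hy' : Good P q n y') (hb : b ∈ primT P J (q ^ n))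
    (h : V A e q n y b j) (h' : V A e q n y' b j') : V A e q n (y + y') b (j + j') := by
  refine (HasVal.mul hG.hq.ne_zero h h').congr fun s _ => ?_
  have h1 : s • (y + y') - (y + y') = (s • y - y) + (s • y' - y') := by
    rw [smul_add]; abel
  rw [h1, H.add_left n _ _ _ (hy s).2 (hy' s).2 hb.2]

include hG H in
theorem V.add_right (hy : Good P q n y) (hb : b ∈ primT P J (q ^ n))
    (hb' : b' ∈ primT P J (q ^ n))
    (h : V A e q n y b j) (h' : V A e q n y b' j') : V A e q n y (b + b') (j + j') := by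
  refine (HasVal.mul hG.hq.ne_zero h h').congr fun s _ => ?_
  rw [H.add_right n _ _ _ (hy s).2 hb.2 hb'.2]

include H in
theorem V.nsmul_left (hy : Good P q n y) (hb : b ∈ primT P J (q ^ n)) (k : ℕ)
    (h : V A e q n y b j) : V A e q n (k • y) b (k * j) := by
  refine (HasVal.pow h k).congr fun s _ => ?_
  rw [smul_comm s k y, ← smul_sub, e_nsmul_left H k (hy s).2 hb.2]

include H in
theorem V.nsmul_right (hy : Good P q n y) (hb : b ∈ primT P J (q ^ n)) (k : ℕ)
    (h : V A e q n y b j) : V A e q n y (k • b) (k * j) := by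
  refine (HasVal.pow h k).congr fun s _ => ?_
  rw [e_nsmul_right H k (hy s).2 hb.2]

include hG H in
theorem V.sub_right (hy : Good P q n y) (hb : b ∈ primT P J (q ^ n))
    (hb' : b' ∈ primT P J (q ^ n))
    (h : V A e q n y b j) (h' : V A e q n y b' j') : V A e q n y (b - b') (j - j') := by
  rw [sub_eq_add_neg j j']
  refine (HasVal.mul hG.hq.ne_zero h (HasVal.inv h')).congr fun s _ => ?_
  rw [e_sub_right H (hy s).2 hb.2 hb'.2, div_eq_mul_inv]

include H in
theorem V.hecke (hy : Good P q n y) (hb : b ∈ primT P J (q ^ n)) (t : R) :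
    V A e q n (t • y) b j ↔ V A e q n y (t • b) j := by
  have h1 : ∀ s : Γ, e n (s • t • y - t • y) b = e n (s • y - y) (t • b) := by
    intro s
    rw [smul_comm s t y, ← smul_sub, H.hecke n t _ _ (hy s).2 hb.2]
  constructor
  · intro h
    exact HasVal.congr h fun s _ => (h1 s).symm
  · intro h
    exact HasVal.congr h fun s _ => h1 s

include hG H in
theorem V.frob (hy : Good P q n y) (hb : b ∈ primT P J (q ^ n)) {φ : Γ} (hφ : φ • A = A)
    (h : V A e q n y b j) : V A e q n (φ • y) (φ • b) j := by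
  refine (HasVal.conj hG.hq H.hA hφ h).congr fun s _ => ?_
  have h1 : s • φ • y - φ • y = φ • ((φ⁻¹ * s * φ) • y - y) := by
    rw [smul_sub, mul_smul, mul_smul, smul_inv_smul]
  rw [h1, H.gal n _ _ φ (hy _).2 hb.2]

include H in
/-- the pairing vanishes if the second argument is in the kernel of reduction -/
theorem V.ker_right (hy : Good P q n y) (hb : b ∈ primT P J (q ^ n)) (hb0 : sp b = 0) :
    V A e q n y b 0 := by
  refine HasVal.one.congr fun s hs => ?_
  exact H.iso n _ _ (hy s) hb (iner_sub H hs y) hb0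

include H in
theorem V.of_fixed (hy : ∀ s : Γ, s • y = y) (hb : b ∈ primT P J (q ^ n)) :
    V A e q n y b 0 := by
  refine HasVal.one.congr fun s hs => ?_
  rw [hy s, sub_self, e_zero_left H hb.2]

end Val

end Fermat.Agent.MazLQB
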